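import Fermat.Agent.S37.H99.Glue

/-!
# S37 (helper698): `RedData` from a POINT reduction map  (layer R1.5)

`PointRed N A ℓ hℓ` = a map `r` from the places of `ℚ̄(X₀(N))` to an arbitrary set `X`
(think: the `k`-points of the special fibre of a model), a bijection `φ` of `X`
(think: the Frobenius twist) such that
* `inertia` : `r (τ • P) = r P` for `τ` in the inertia group at `A`,
* `frob`    : `r (σ • P) = φ (r P)` for Frobenius elements `σ` at `A`,
* `hecke`   : `r_* (T_ℓ P) = φ (r P) + ℓ · φ⁻¹ (r P)` as divisors on `X`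
              (Eichler–Shimura congruence, POINTWISE),
* `inj`     : a degree-zero divisor `D` with `r_* D = 0` and `m D` principal (`ℓ ∤ m`) is principal.

`redData_of_pointRed` : `HeckeInputsAlong ℚ̄ N ℓ → PointRed N A ℓ hℓ → RedData N A ℓ hℓ`
(the structure of helper99, `Fermat.Agent.S37.H99.RedData`, which gives the frozen S37).
The target group is `(X →₀ ℤ) ⧸ r_*(principal ∩ degZero)`; no property "principal ↦ principal"
of `r` is needed.
-/

set_option autoImplicit false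

noncomputable section

namespace Fermat.Agent.S37.H698

open ModularCurve AlgebraicCurve ValuationSubring

/-- The Galois action on places of `ℚ̄(X₀(N))` (coefficientwise on `q`-expansions). -/
abbrev galPlace (N : ℕ) (σ : AlgebraicClosure ℚ ≃ₐ[ℚ] AlgebraicClosure ℚ)
    (P : Place (AlgebraicClosure ℚ) (modularFunctionFieldBar N)) :
    Place (AlgebraicClosure ℚ) (modularFunctionFieldBar N) :=
  arithmeticGalois (modularFunctionFieldFull N) σ • P

/-- The Hecke correspondence `T_ℓ = α_* β^*` on divisors of `ℚ̄(X₀(N))`, for given inputs. -/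
abbrev heckeDiv (N ℓ : ℕ) [NeZero N] (hℓ : ℓ.Prime)
    (hα : haveI : NeZero ℓ := ⟨hℓ.ne_zero⟩; HeckeAlphaBarIntegral (AlgebraicClosure ℚ) N ℓ)
    (hβ : haveI : NeZero ℓ := ⟨hℓ.ne_zero⟩; HeckeBetaBarIntegral (AlgebraicClosure ℚ) N ℓ)
    (hP : HasPrincipalDivisors (AlgebraicClosure ℚ) (modularFunctionFieldBar (N * ℓ))) :
    Divisor (AlgebraicClosure ℚ) (modularFunctionFieldBar N) →+
      Divisor (AlgebraicClosure ℚ) (modularFunctionFieldBar N) :=
  haveI : NeZero ℓ := ⟨hℓ.ne_zero⟩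
  haveI := hP
  heckeDivBar (L := AlgebraicClosure ℚ) (N := N) (ℓ := ℓ) hα hβ

/-- A point reduction map for `X₀(N)` at `(A, ℓ)`. -/
structure PointRed (N : ℕ) [NeZero N] (A : ValuationSubring (AlgebraicClosure ℚ)) (ℓ : ℕ)
    (hℓ : ℓ.Prime) where
  /-- the points of the special fibre -/
  X : Type
  /-- reduction of places -/
  r : Place (AlgebraicClosure ℚ) (modularFunctionFieldBar N) → X
  /-- the Frobenius twist on points of the special fibre -/
  φ : Equiv.Perm X
  inertia : ∀ τ ∈ A.inertiaSubgroupIn ℚ, ∀ P, r (galPlace N τ P) = r P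
  frob : ∀ σ : AlgebraicClosure ℚ ≃ₐ[ℚ] AlgebraicClosure ℚ, A.IsFrobeniusAt σ ℓ →
    ∀ P, r (galPlace N σ P) = φ (r P)
  hecke : ∀ (hα : haveI : NeZero ℓ := ⟨hℓ.ne_zero⟩; HeckeAlphaBarIntegral (AlgebraicClosure ℚ) N ℓ)
    (hβ : haveI : NeZero ℓ := ⟨hℓ.ne_zero⟩; HeckeBetaBarIntegral (AlgebraicClosure ℚ) N ℓ)
    (hP : HasPrincipalDivisors (AlgebraicClosure ℚ) (modularFunctionFieldBar (N * ℓ)))
    (P : Place (AlgebraicClosure ℚ) (modularFunctionFieldBar N)),
    Finsupp.mapDomain r (heckeDiv N ℓ hℓ hα hβ hP (Finsupp.single P 1)) =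
      Finsupp.single (φ (r P)) (1 : ℤ) + Finsupp.single (φ.symm (r P)) (ℓ : ℤ)
  inj : ∀ (m : ℕ) (D : Divisor (AlgebraicClosure ℚ) (modularFunctionFieldBar N)),
    m.Coprime ℓ → D ∈ Divisor.degZero (K := AlgebraicClosure ℚ) (F := modularFunctionFieldBar N) →
    m • D ∈ Divisor.principal (K := AlgebraicClosure ℚ) (F := modularFunctionFieldBar N) →
    Finsupp.mapDomain r D = 0 →
    D ∈ Divisor.principal (K := AlgebraicClosure ℚ) (F := modularFunctionFieldBar N)

namespace PointRed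

variable {N : ℕ} [NeZero N] {A : ValuationSubring (AlgebraicClosure ℚ)} {ℓ : ℕ} {hℓ : ℓ.Prime}
variable (R : PointRed N A ℓ hℓ)

/-- push-forward of divisors along `r` -/
def rDiv : Divisor (AlgebraicClosure ℚ) (modularFunctionFieldBar N) →+ (R.X →₀ ℤ) :=
  Finsupp.mapDomain.addMonoidHom R.r

@[simp] theorem rDiv_apply (D : Divisor (AlgebraicClosure ℚ) (modularFunctionFieldBar N)) :
    R.rDiv D = Finsupp.mapDomain R.r D := rfl

theorem rDiv_single (P : Place (AlgebraicClosure ℚ) (modularFunctionFieldBar N)) (n : ℤ) :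
    R.rDiv (Finsupp.single P n) = Finsupp.single (R.r P) n :=
  Finsupp.mapDomain_single

/-- the subgroup of relations: images of principal divisors (of degree zero) -/
def relSub : AddSubgroup (R.X →₀ ℤ) :=
  ((Divisor.principal (K := AlgebraicClosure ℚ) (F := modularFunctionFieldBar N)) ⊓
    (Divisor.degZero (K := AlgebraicClosure ℚ) (F := modularFunctionFieldBar N))).map R.rDiv

/-- the target group -/
abbrev Y : Type := (R.X →₀ ℤ) ⧸ R.relSub

/-- the reduction map on `J₀(N)` -/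
def red : JZero N →+ R.Y :=
  QuotientAddGroup.map _ _
    (R.rDiv.comp (Divisor.degZero (K := AlgebraicClosure ℚ)
      (F := modularFunctionFieldBar N)).subtype) (by
    rintro ⟨D, hD0⟩ hD
    simp only [AddSubgroup.mem_addSubgroupOf] at hD
    exact ⟨D, ⟨hD, hD0⟩, rfl⟩)

theorem red_mk (D : Divisor.degZero (K := AlgebraicClosure ℚ) (F := modularFunctionFieldBar N)) :
    R.red (Pic0.mk D) = QuotientAddGroup.mk (R.rDiv (D : Divisor _ _)) := rfl

theorem red_mk_eq_zero_iff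
    (D : Divisor.degZero (K := AlgebraicClosure ℚ) (F := modularFunctionFieldBar N)) :
    R.red (Pic0.mk D) = 0 ↔ R.rDiv (D : Divisor _ _) ∈ R.relSub := by
  rw [red_mk, QuotientAddGroup.eq_zero_iff]

/-- transport of `rDiv` along the Galois action -/
theorem rDiv_gal (σ : AlgebraicClosure ℚ ≃ₐ[ℚ] AlgebraicClosure ℚ) (f : R.X → R.X)
    (h : ∀ P, R.r (galPlace N σ P) = f (R.r P))
    (D : Divisor (AlgebraicClosure ℚ) (modularFunctionFieldBar N)) :
    R.rDiv (arithmeticGalois (modularFunctionFieldFull N) σ • D) =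
      Finsupp.mapDomain f (R.rDiv D) := by
  rw [rDiv_apply, rDiv_apply, SemilinearAut.divisor_smul_def, ← Finsupp.mapDomain_comp,
    ← Finsupp.mapDomain_comp]
  congr 1
  funext P
  exact h P

theorem gal_smul_mk (σ : AlgebraicClosure ℚ ≃ₐ[ℚ] AlgebraicClosure ℚ)
    (D : Divisor.degZero (K := AlgebraicClosure ℚ) (F := modularFunctionFieldBar N)) :
    σ • (Pic0.mk D : JZero N) =
      Pic0.mk (SemilinearAut.degZeroSMulHom (arithmeticGalois (modularFunctionFieldFull N) σ) D) :=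
  rfl

theorem red_gal_mk (σ : AlgebraicClosure ℚ ≃ₐ[ℚ] AlgebraicClosure ℚ) (f : R.X → R.X)
    (h : ∀ P, R.r (galPlace N σ P) = f (R.r P))
    (D : Divisor.degZero (K := AlgebraicClosure ℚ) (F := modularFunctionFieldBar N)) :
    R.red (σ • (Pic0.mk D : JZero N)) =
      QuotientAddGroup.mk (Finsupp.mapDomain f (R.rDiv (D : Divisor _ _))) := by
  rw [gal_smul_mk, red_mk, SemilinearAut.coe_degZeroSMulHom, R.rDiv_gal σ f h]

theorem red_inertia (τ : AlgebraicClosure ℚ ≃ₐ[ℚ] AlgebraicClosure ℚ)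
    (hτ : τ ∈ A.inertiaSubgroupIn ℚ) (x : JZero N) : R.red (τ • x) = R.red x := by
  obtain ⟨D, rfl⟩ := Pic0.mk_surjective x
  rw [R.red_gal_mk τ id (fun P => R.inertia τ hτ P) D, Finsupp.mapDomain_id, red_mk]

theorem red_frob_ker (σ : AlgebraicClosure ℚ ≃ₐ[ℚ] AlgebraicClosure ℚ)
    (hσ : A.IsFrobeniusAt σ ℓ) (x : JZero N) (hx : R.red x = 0) : R.red (σ • x) = 0 := by
  obtain ⟨D, rfl⟩ := Pic0.mk_surjective x
  rw [red_mk_eq_zero_iff] at hx
  obtain ⟨E, ⟨hEp, hE0⟩, hE⟩ := hx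
  rw [R.red_gal_mk σ R.φ (fun P => R.frob σ hσ P) D, QuotientAddGroup.eq_zero_iff, ← hE,
    ← R.rDiv_gal σ R.φ (fun P => R.frob σ hσ P) E]
  exact ⟨_, ⟨SemilinearAut.smul_mem_principal _ hEp, SemilinearAut.smul_mem_degZero _ hE0⟩, rfl⟩

theorem red_inj_torsion (m : ℕ) (x : JZero N) (hm : m.Coprime ℓ) (hmx : m • x = 0)
    (hx : R.red x = 0) : x = 0 := by
  obtain ⟨D, rfl⟩ := Pic0.mk_surjective x
  rw [red_mk_eq_zero_iff] at hx
  obtain ⟨E, ⟨hEp, hE0⟩, hE⟩ := hx
  have hmD : m • (D : Divisor (AlgebraicClosure ℚ) (modularFunctionFieldBar N)) ∈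
      Divisor.principal (K := AlgebraicClosure ℚ) (F := modularFunctionFieldBar N) := by
    have h1 : (Pic0.mk (m • D) : JZero N) = 0 := hmx
    have h2 := (QuotientAddGroup.eq_zero_iff (m • D)).mp h1
    simpa [AddSubgroup.mem_addSubgroupOf] using h2
  have hDE : (D : Divisor (AlgebraicClosure ℚ) (modularFunctionFieldBar N)) - E ∈
      Divisor.principal (K := AlgebraicClosure ℚ) (F := modularFunctionFieldBar N) := by
    refine R.inj m _ hm (AddSubgroup.sub_mem _ D.2 hE0) ?_ ?_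
    · rw [smul_sub]
      exact AddSubgroup.sub_mem _ hmD (AddSubgroup.nsmul_mem _ hEp m)
    · have := map_sub R.rDiv (D : Divisor (AlgebraicClosure ℚ) (modularFunctionFieldBar N)) E
      rw [rDiv_apply] at this
      rw [this, hE, sub_self]
  have hD : (D : Divisor (AlgebraicClosure ℚ) (modularFunctionFieldBar N)) ∈
      Divisor.principal (K := AlgebraicClosure ℚ) (F := modularFunctionFieldBar N) := by
    have := AddSubgroup.add_mem _ hDE hEp
    rwa [sub_add_cancel] at this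
  exact (QuotientAddGroup.eq_zero_iff D).mpr (by simpa [AddSubgroup.mem_addSubgroupOf] using hD)

/-- the pointwise congruence relation extends to all divisors -/
theorem rDiv_heckeDiv
    (hα : haveI : NeZero ℓ := ⟨hℓ.ne_zero⟩; HeckeAlphaBarIntegral (AlgebraicClosure ℚ) N ℓ)
    (hβ : haveI : NeZero ℓ := ⟨hℓ.ne_zero⟩; HeckeBetaBarIntegral (AlgebraicClosure ℚ) N ℓ)
    (hP : HasPrincipalDivisors (AlgebraicClosure ℚ) (modularFunctionFieldBar (N * ℓ)))
    (D : Divisor (AlgebraicClosure ℚ) (modularFunctionFieldBar N)) :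
    R.rDiv (heckeDiv N ℓ hℓ hα hβ hP D) =
      Finsupp.mapDomain R.φ (R.rDiv D) + (ℓ : ℤ) • Finsupp.mapDomain R.φ.symm (R.rDiv D) := by
  induction D using Finsupp.induction_linear with
  | zero => simp
  | add D E hD hE =>
    rw [map_add, map_add, hD, hE, map_add, Finsupp.mapDomain_add, Finsupp.mapDomain_add,
      smul_add]
    abel
  | single P n =>
    have h1 : (Finsupp.single P n : Divisor (AlgebraicClosure ℚ) (modularFunctionFieldBar N)) =
        n • Finsupp.single P 1 := by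
      rw [Finsupp.smul_single, smul_eq_mul, mul_one]
    rw [h1, map_zsmul, map_zsmul, map_zsmul, rDiv_apply, R.hecke hα hβ hP P, rDiv_single,
      Finsupp.mapDomain_smul, Finsupp.mapDomain_smul, Finsupp.mapDomain_single,
      Finsupp.mapDomain_single, smul_add, smul_comm (ℓ : ℤ) n, Finsupp.smul_single (ℓ : ℤ),
      smul_eq_mul, mul_one]

theorem red_relation (hHIA : haveI : NeZero ℓ := ⟨hℓ.ne_zero⟩;
      HeckeInputsAlong (AlgebraicClosure ℚ) N ℓ)
    (σ : AlgebraicClosure ℚ ≃ₐ[ℚ] AlgebraicClosure ℚ) (hσ : A.IsFrobeniusAt σ ℓ) (x : JZero N) :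
    R.red (σ • σ • x - heckeOperatorBar N ⟨ℓ, hℓ⟩ (σ • x) + ℓ • x) = 0 := by
  haveI : NeZero ℓ := ⟨hℓ.ne_zero⟩
  obtain ⟨hα, hβ, hP, hfin, hFI, hN⟩ := hHIA
  haveI := hP
  obtain ⟨D, rfl⟩ := Pic0.mk_surjective x
  have hT : heckeOperatorBar N ⟨ℓ, hℓ⟩ = (heckePic0Bar hα hβ hFI hfin hN).toIntLinearMap := by
    show (heckeOperatorAlong (AlgebraicClosure ℚ) N ℓ).toIntLinearMap = _
    rw [heckeOperatorAlong_eq hα hβ hFI hfin hN]
  set g := arithmeticGalois (modularFunctionFieldFull N) σ with hg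
  set D' := SemilinearAut.degZeroSMulHom g D with hD'
  have e1 : σ • (Pic0.mk D : JZero N) = Pic0.mk D' := rfl
  have e2 : R.red (σ • (Pic0.mk D' : JZero N)) =
      QuotientAddGroup.mk (Finsupp.mapDomain R.φ (R.rDiv (D' : Divisor _ _))) :=
    R.red_gal_mk σ R.φ (fun P => R.frob σ hσ P) D'
  have e3 : R.rDiv (D' : Divisor _ _) = Finsupp.mapDomain R.φ (R.rDiv (D : Divisor _ _)) := by
    rw [hD', SemilinearAut.coe_degZeroSMulHom]
    exact R.rDiv_gal σ R.φ (fun P => R.frob σ hσ P) D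
  have e4 : R.red (heckeOperatorBar N ⟨ℓ, hℓ⟩ (Pic0.mk D' : JZero N)) =
      QuotientAddGroup.mk (R.rDiv (heckeDiv N ℓ hℓ hα hβ hP (D' : Divisor _ _))) := by
    rw [hT]
    rfl
  have e5 : Finsupp.mapDomain R.φ.symm (Finsupp.mapDomain R.φ (R.rDiv (D : Divisor _ _))) =
      R.rDiv (D : Divisor _ _) := by
    rw [← Finsupp.mapDomain_comp]
    have : (R.φ.symm ∘ R.φ) = id := by
      funext a
      simp
    rw [this, Finsupp.mapDomain_id]
  rw [e1, map_add, map_sub, e2, e4, R.rDiv_heckeDiv hα hβ hP, e3, e5, map_nsmul, red_mk,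
    ← QuotientAddGroup.mk_sub, ← QuotientAddGroup.mk_nsmul, ← QuotientAddGroup.mk_add,
    QuotientAddGroup.eq_zero_iff]
  have : Finsupp.mapDomain R.φ (Finsupp.mapDomain R.φ (R.rDiv (D : Divisor _ _))) -
      (Finsupp.mapDomain R.φ (Finsupp.mapDomain R.φ (R.rDiv (D : Divisor _ _))) +
        (ℓ : ℤ) • R.rDiv (D : Divisor _ _)) + ℓ • R.rDiv (D : Divisor _ _) = 0 := by
    rw [← natCast_zsmul]
    abel
  rw [this]
  exact AddSubgroup.zero_mem _

end PointRed

open PointRed in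
/-- **Layer R1.5.**  `RedData` (hence the frozen S37, via `H99.result_of_redData`) from a point
reduction map and the non-degeneracy of the Prelude Hecke operator. -/
def redData_of_pointRed {N : ℕ} [NeZero N] {A : ValuationSubring (AlgebraicClosure ℚ)} {ℓ : ℕ}
    {hℓ : ℓ.Prime}
    (hHIA : haveI : NeZero ℓ := ⟨hℓ.ne_zero⟩; HeckeInputsAlong (AlgebraicClosure ℚ) N ℓ)
    (R : PointRed N A ℓ hℓ) : H99.RedData N A ℓ hℓ where
  Y := R.Y
  instY := inferInstance
  red := R.red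
  inertia := R.red_inertia
  frob_ker := R.red_frob_ker
  inj_torsion := R.red_inj_torsion
  relation := R.red_relation hHIA

/-- The frozen S37 statement from point reduction maps at all good `(ℓ, A)`. -/
theorem result_of_pointRed (N p : ℕ) [NeZero N]
    (hHIA : ∀ ℓ : ℕ, (hℓ : ℓ.Prime) → ¬ ℓ ∣ N →
      haveI : NeZero ℓ := ⟨hℓ.ne_zero⟩; HeckeInputsAlong (AlgebraicClosure ℚ) N ℓ)
    (H : ∀ ℓ : ℕ, (hℓ : ℓ.Prime) → ¬ ℓ ∣ N →
      ∀ A : ValuationSubring (AlgebraicClosure ℚ), A.LiesOverPrime ℓ →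
        Nonempty (PointRed N A ℓ hℓ))
    (hcomm : ModularCurve.HeckeOperatorsCommuteBar N) :
    letI := ModularCurve.heckeModuleBar N
    ∀ (_ : SMulCommClass (AlgebraicClosure ℚ ≃ₐ[ℚ] AlgebraicClosure ℚ) ModularCurve.HeckeAlg
      (ModularCurve.JZero N)),
      ModularCurve.SpecializationExists (K := ℚ) (L := AlgebraicClosure ℚ) N p
        (ModularCurve.JZero N) :=
  H99.result_of_redData N p
    (fun ℓ hℓ hN A hA => (H ℓ hℓ hN A hA).map (redData_of_pointRed (hHIA ℓ hℓ hN))) hcomm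

end Fermat.Agent.S37.H698
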